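import Fermat.Agent.A2.H129.Kummer
import Fermat.Agent.S17.H680.Cusp

/-!
# S15 / DESC, leaf T6'' (helper994), part (e): the Kummer dictionary for rational classes

`x ∈ Pic0 K F`, `x = [D]`, `m • x = [Z]` with `Z` a `g`-invariant divisor of degree `0`;
`m D - Z = div f`.  Then `div (g f / f) = m (g D - D)`, and `(g - 1)² x = 0` as soon as
`(g - 1)² f` is a constant times an `m`-th power.

* `KummerRatTwice g m` : the Kummer-side statement (hypothesis `m ∣ div (g f / f)` only);
* `unipotent_of_kummerRatTwice` : `KummerRatTwice g m` ⟹ `g • (g • x - x) = g • x - x` for every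
  `x` such that `m • x` is the class of a `g`-invariant divisor;
* `JZero.exists_invariant_degZero` : a Galois-fixed class of `J₀(N)` is the class of a
  Galois-invariant divisor of degree `0` (from `S17.H680.JZero.exists_invariant_rep`).
-/

set_option autoImplicit false

namespace Fermat.Agent.S15.H994

open AlgebraicCurve Fermat.Agent.A2.H129

section Abstract

variable {K F : Type*} [Field K] [Field F] [Algebra K F]

/-- **Kummer-side statement for invariant classes.**  For every `f ≠ 0` such that the divisor of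
`g f / f` is divisible by `m`, the function `(g - 1)² f` is a constant times an `m`-th power. -/
def KummerRatTwice (g : SemilinearAut K F) (m : ℕ) : Prop :=
  ∀ f : F, f ≠ 0 →
    (∀ v : Place K F, (m : ℤ) ∣ v.ord (tauSubOne (SemilinearAut.toRingAut g) f)) →
    ∃ y : F, ∃ c : K, c ≠ 0 ∧
      tauSubOne (SemilinearAut.toRingAut g) (tauSubOne (SemilinearAut.toRingAut g) f)
        = algebraMap K F c * y ^ m

/-- **T0''.**  The Kummer-side statement implies `(g - 1)² x = 0` for every class `x` such that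
`m • x` is represented by a `g`-invariant divisor. -/
theorem unipotent_of_kummerRatTwice (g : SemilinearAut K F) (m : ℕ) (hm : m ≠ 0)
    (H : KummerRatTwice g m) (x : Pic0 K F)
    (Z : Divisor.degZero (K := K) (F := F))
    (hZ : g • (Z : Divisor K F) = (Z : Divisor K F))
    (hx : m • x = Pic0.mk Z) :
    g • (g • x - x) = g • x - x := by
  obtain ⟨D, rfl⟩ := Pic0.mk_surjective x
  -- the Kummer generator
  have hprin : ((m • D - Z : Divisor.degZero (K := K) (F := F)) : Divisor K F) ∈
      Divisor.principal (K := K) (F := F) := by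
    have h0 : Pic0.mk (m • D - Z) = 0 := by
      have h1 : Pic0.mk (m • D - Z) = m • Pic0.mk D - Pic0.mk Z := rfl
      rw [h1, hx, sub_self]
    have := (QuotientAddGroup.eq_zero_iff (m • D - Z)).1 h0
    simpa [AddSubgroup.mem_addSubgroupOf] using this
  obtain ⟨f, hf, hfD⟩ := hprin
  have hZinv : ∀ v : Place K F, (Z : Divisor K F) (g⁻¹ • v) = (Z : Divisor K F) v := by
    intro v
    rw [← SemilinearAut.divisor_smul_apply, hZ]
  have hfD' : ∀ v : Place K F,
      v.ord f = (m : ℤ) * (D : Divisor K F) v - (Z : Divisor K F) v := by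
    intro v
    rw [← hfD v]
    simp
  set τ := SemilinearAut.toRingAut g with hτ
  have e1 : ∀ (h : F), h ≠ 0 → ∀ v : Place K F,
      v.ord (tauSubOne τ h) = (g⁻¹ • v).ord h - v.ord h := by
    intro h hh v
    have hτh : τ h ≠ 0 := by simpa using hh
    show v.ord (τ h * h⁻¹) = _
    rw [ord_div v hτh hh, hτ, ord_smul_eq]
  have hdiv : ∀ v : Place K F, (m : ℤ) ∣ v.ord (tauSubOne τ f) := by
    intro v
    refine ⟨(D : Divisor K F) (g⁻¹ • v) - (D : Divisor K F) v, ?_⟩
    rw [e1 f hf v, hfD', hfD', hZinv]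
    ring
  obtain ⟨y, c, hc, hyc⟩ := H f hf hdiv
  have hτf : τ f ≠ 0 := by simpa using hf
  have h1 : tauSubOne τ f ≠ 0 := tauSubOne_ne_zero τ hf
  have h2 : tauSubOne τ (tauSubOne τ f) ≠ 0 := tauSubOne_ne_zero τ h1
  have hy : y ≠ 0 := by
    rintro rfl
    rw [zero_pow hm, mul_zero] at hyc
    exact h2 hyc
  have hcF : algebraMap K F c ≠ 0 := by simpa using hc
  -- the divisor `E = (g-1)² D`
  set E : Divisor.degZero (K := K) (F := F) :=
    SemilinearAut.degZeroSMulHom g (SemilinearAut.degZeroSMulHom g D - D)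
      - (SemilinearAut.degZeroSMulHom g D - D) with hE
  have hgoal : g • (g • Pic0.mk D - Pic0.mk D) - (g • Pic0.mk D - Pic0.mk D) = Pic0.mk E := by
    rw [SemilinearAut.pic0_smul_mk]
    rfl
  rw [← sub_eq_zero, hgoal]
  refine (QuotientAddGroup.eq_zero_iff E).2 ?_
  rw [AddSubgroup.mem_addSubgroupOf]
  refine ⟨y, hy, fun w => ?_⟩
  -- compare `m * E w` and `m * ord_w y`
  have hEw : (E : Divisor K F) w =
      (D : Divisor K F) (g⁻¹ • (g⁻¹ • w)) - (D : Divisor K F) (g⁻¹ • w)
        - ((D : Divisor K F) (g⁻¹ • w) - (D : Divisor K F) w) := by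
    simp only [hE, AddSubgroupClass.coe_sub, SemilinearAut.coe_degZeroSMulHom, smul_sub,
      Finsupp.sub_apply, SemilinearAut.divisor_smul_apply]
  have hord : w.ord (tauSubOne τ (tauSubOne τ f)) =
      (g⁻¹ • (g⁻¹ • w)).ord f - (g⁻¹ • w).ord f - ((g⁻¹ • w).ord f - w.ord f) := by
    rw [e1 _ h1 w, e1 f hf (g⁻¹ • w), e1 f hf w]
  have hord2 : w.ord (tauSubOne τ (tauSubOne τ f)) = (m : ℤ) * w.ord y := by
    rw [hyc, w.ord_mul hcF (pow_ne_zero m hy), ord_algebraMap_eq_zero, zero_add, ord_pow]
  have hmE : (m : ℤ) * (E : Divisor K F) w = (m : ℤ) * w.ord y := by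
    rw [← hord2, hord, hEw, hfD', hfD', hfD', hZinv, hZinv]
    ring
  have hm' : (m : ℤ) ≠ 0 := by exact_mod_cast hm
  exact mul_left_cancel₀ hm' hmE

end Abstract

section Modular

open ModularCurve Fermat.Agent.S17.H680 Fermat.Agent.Lib.RR

variable (N : ℕ) [NeZero N]

/-- A Galois-fixed class of `J₀(N)` is the class of a Galois-invariant divisor of degree `0`. -/
theorem JZero.exists_invariant_degZero {a : JZero N}
    (ha : ∀ σ : AlgebraicClosure ℚ ≃ₐ[ℚ] AlgebraicClosure ℚ, σ • a = a) :
    ∃ Z : Divisor.degZero (K := AlgebraicClosure ℚ) (F := modularFunctionFieldBar N),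
      (∀ σ : AlgebraicClosure ℚ ≃ₐ[ℚ] AlgebraicClosure ℚ,
        arithmeticGalois (modularFunctionFieldFull N) σ •
            (Z : Divisor (AlgebraicClosure ℚ) (modularFunctionFieldBar N)) =
          (Z : Divisor (AlgebraicClosure ℚ) (modularFunctionFieldBar N))) ∧
      Pic0.mk Z = a := by
  have ha' : a ∈ FixedPoints.addSubgroup (AlgebraicClosure ℚ ≃ₐ[ℚ] AlgebraicClosure ℚ)
      (JZero N) := fun σ => ha σ
  obtain ⟨k, E, hdeg, -, -, -, -, -, hinv, hmk⟩ := JZero.exists_invariant_rep N ha'
  refine ⟨⟨E - k • prim (JZero.cusp N), hdeg⟩, fun σ => ?_, hmk⟩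
  show arithmeticGalois (modularFunctionFieldFull N) σ • (E - k • prim (JZero.cusp N)) = _
  rw [smul_sub, smul_comm, hinv σ, smul_prim, JZero.galois_smul_cusp]

/-- **T0'' for `J₀(N)`.**  One `σ`: the Kummer statement for invariant classes gives
`(σ - 1)² x = 0` for every `x` with `m • x` rational. -/
theorem unipotent_JZero_of_kummerRat (m : ℕ) (hm : m ≠ 0)
    (τ : AlgebraicClosure ℚ ≃ₐ[ℚ] AlgebraicClosure ℚ)
    (H : KummerRatTwice (K := AlgebraicClosure ℚ) (F := modularFunctionFieldBar N)
      (arithmeticGalois (modularFunctionFieldFull N) τ) m)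
    (x : JZero N)
    (hx : ∀ σ : AlgebraicClosure ℚ ≃ₐ[ℚ] AlgebraicClosure ℚ, σ • (m • x) = m • x) :
    τ • (τ • x) + x = 2 • (τ • x) := by
  obtain ⟨Z, hZ, hmk⟩ := JZero.exists_invariant_degZero N hx
  have h1 : arithmeticGalois (modularFunctionFieldFull N) τ •
      (arithmeticGalois (modularFunctionFieldFull N) τ • x - x) =
        arithmeticGalois (modularFunctionFieldFull N) τ • x - x :=
    unipotent_of_kummerRatTwice (arithmeticGalois (modularFunctionFieldFull N) τ) m hm H x Z
      (hZ τ) hmk.symm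
  have h1' : τ • (τ • x - x) = τ • x - x := h1
  rw [smul_sub] at h1'
  rw [two_nsmul]
  have h2 : τ • (τ • x) = τ • x - x + τ • x := by
    rw [← h1']; abel
  rw [h2]; abel

end Modular

end Fermat.Agent.S15.H994
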