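import Fermat.Agent.S15.H994.T6ppKummer
import Fermat.Agent.S15.H994.T6ppDict
import Fermat.Agent.S15.H208.LocPSpec

/-!
# S15 / DESC, leaf T6'' (helper994): `(τ - 1)² x = 0` for `x ∈ J₀(N)(ℚ̄)` with `m • x` rational

`t6pp : H208.T6ppStatement N q m` for every prime `q ‖ N` and every `m > 0` prime to `q`,
UNCONDITIONAL (frozen interface `Fermat/Agent/S15/H208/LocPSpec.lean`).

Chain: `kummerRat` (`T6ppKummer.lean`: ALG route S with the hypothesis moved to `τ f / f`, IF,
MOD = S2 + S3 + GOODRED, D2; all re-assembled from the wall A2 on main) and the dictionary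
`unipotent_JZero_of_kummerRat` (`T6ppDict.lean`: a rational class is the class of a
Galois-invariant divisor, `S17.H680.JZero.exists_invariant_rep`).

* `t6ppAt_of_kummerRatAt` : one `τ`;
* `t6pp`                  : `H208.T6ppStatement N q m`;
* `t6pp_prime`            : level `p`, inertia at `p`, modulus `r ^ k`, `r ≠ p` prime
                            (the body of `H208.T6ppAllStatement` / `H466.T6ppAllStatement`).
-/

set_option autoImplicit false

namespace Fermat.Agent.S15.H994

open ModularCurve AlgebraicCurve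

/-- One `τ`: the Kummer statement for rational classes gives `H208.T6ppAt`. -/
theorem t6ppAt_of_kummerRatAt (N : ℕ) [NeZero N] (m : ℕ) (hm : 0 < m)
    (τ : AlgebraicClosure ℚ ≃ₐ[ℚ] AlgebraicClosure ℚ) (h : KummerRatAt N m τ) :
    Fermat.Agent.S15.H208.T6ppAt N m τ := by
  intro x hx
  refine unipotent_JZero_of_kummerRat N m hm.ne' τ ?_ x hx
  intro f hf hdiv
  obtain ⟨y, _, hy⟩ := h f hf hdiv
  refine ⟨y, 1, one_ne_zero, ?_⟩
  rw [toRingAut_arithmeticGalois, Fermat.Agent.A2.T0.H669.tauSubOne_tauSubOne_eq _ hf, hy,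
    map_one, one_mul]
  have hτf : arithmeticRingAut (modularFunctionFieldFull N) τ f ≠ 0 :=
    (map_ne_zero_iff _ (arithmeticRingAut (modularFunctionFieldFull N) τ).injective).2 hf
  field_simp

/-- **T6''** (`H208.T6ppStatement N q m`), unconditional, for every prime `q ‖ N` and every
`m > 0` prime to `q`. -/
theorem t6pp (N q m : ℕ) (hq : q.Prime) (hqN : q ∣ N) (hq2 : ¬ q ^ 2 ∣ N) (hN : N ≠ 0)
    (hm : 0 < m) (hqm : ¬ q ∣ m) : Fermat.Agent.S15.H208.T6ppStatement N q m := by
  have : NeZero N := ⟨hN⟩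
  intro P hP τ hτ
  exact t6ppAt_of_kummerRatAt N m hm τ (kummerRat N q m hq hqN hq2 hN hm hqm P hP τ hτ)

/-- **T6'' at level `p`**, inertia at `p`, modulus `r ^ k` with `r ≠ p` prime. -/
theorem t6pp_prime (p : ℕ) (hp : p.Prime) (r : ℕ) (hr : r.Prime) (hrp : r ≠ p) (k : ℕ) :
    Fermat.Agent.S15.H208.T6ppStatement p p (r ^ k) := by
  refine t6pp p p (r ^ k) hp dvd_rfl ?_ hp.ne_zero (pow_pos hr.pos k) ?_
  · intro h
    have h1 : p ^ 2 ≤ p := Nat.le_of_dvd hp.pos h
    have h2 : p < p ^ 2 := by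
      have := hp.one_lt
      nlinarith
    omega
  · intro h
    have h1 : p ∣ r := hp.dvd_of_dvd_pow h
    exact hrp ((Nat.prime_dvd_prime_iff_eq hp hr).1 h1).symm

end Fermat.Agent.S15.H994
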