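import Fermat.Agent.A2.Top.H96.AlgNoSep

/-!
# S15 / DESC, leaf T6'' (helper994), part (a): ALG for Kummer functions of rational classes

`A2.AlgSSConclusion E m τ` asks `DivisibleDiv E m f`.  Step I of route S (`Alg.H34.stepI`) holds for
EVERY `f ≠ 0`, and Step II (`Top.H96.stepII_noSep`) only needs `DivisibleDiv E m (τ f / f)`.
So the hypothesis can be moved from `f` to `τ f / f`:

* `AlgRatConclusion E m τ` : `∀ f ≠ 0, DivisibleDiv E m (τ f * f⁻¹) → ∃ h ≠ 0, τ²f · f = h^m (τ f)²`;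
* `algRat_noSep` : ALG in this form, from the hypotheses of `Top.H96.algSS_noSep` (unconditional).
-/

set_option autoImplicit false

namespace Fermat.Agent.S15.H994

open Fermat.Agent.A2 Fermat.Agent.A2.Alg

/-- The conclusion of ALG for Kummer functions of `τ`-invariant classes: `(τ - 1)²` kills every
`f` such that `m ∣ div (τ f / f)`. -/
def AlgRatConclusion {F : Type*} [Field F] (E : Type*) [Field E] [Algebra E F] (m : ℕ)
    (τ : F ≃+* F) : Prop :=
  ∀ f : F, f ≠ 0 → DivisibleDiv E m (τ f * f⁻¹) →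
    ∃ h : F, h ≠ 0 ∧ τ (τ f) * f = h ^ m * (τ f) ^ 2

section Asm

variable {R E F : Type} [CommRing R] [IsDomain R] [IsDiscreteValuationRing R]
  [HenselianLocalRing R] [IsAlgClosed (IsLocalRing.ResidueField R)]
  [Field E] [CharZero E] [Algebra R E] [IsFractionRing R E]
  [Field F] [Algebra E F] [Algebra R F] [IsScalarTower R E F]

/-- **ALG for rational classes** (unconditional): same hypotheses as `Top.H96.algSS_noSep`. -/
theorem algRat_noSep
    (w : R) (hw : Irreducible w) (q m : ℕ) (hq : q.Prime)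
    (hqR : (q : R) ∈ IsLocalRing.maximalIdeal R) (hm : 0 < m) (hqm : ¬ q ∣ m)
    (x : F) (hx : Transcendental E x)
    (hfin : FiniteDimensional (IntermediateField.adjoin E ({x} : Set F)) F)
    (hconst : ∀ f : F, IsAlgebraic E f → f ∈ (algebraMap E F).range)
    (Bf Bi : Subalgebra R F)
    (hBf : ∀ f : F, f ∈ Bf ↔ IsIntegral (Algebra.adjoin R ({x} : Set F)) f)
    (hBi : ∀ f : F, f ∈ Bi ↔ IsIntegral (Algebra.adjoin R ({x⁻¹} : Set F)) f)
    (cf : SSChart w Bf) (ci : SSChart w Bi)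
    (τ : F ≃+* F) (τE : E ≃+* E) (τR : R ≃+* R)
    (hτE : ∀ e : E, τ (algebraMap E F e) = algebraMap E F (τE e))
    (hτR : ∀ r : R, τE (algebraMap R E r) = algebraMap R E (τR r))
    (hτf : ∀ b ∈ Bf, ∃ c ∈ Bf, τ b - b = algebraMap R F w * c)
    (hτi : ∀ b ∈ Bi, ∃ c ∈ Bi, τ b - b = algebraMap R F w * c) :
    AlgRatConclusion E m τ := by
  have hCf : ChartCtx E w x Bf := ⟨hw, hx, hfin, hconst, hBf⟩
  have hCi : ChartCtx E w x⁻¹ Bi := H34.chartCtx_inv w hw x hx hfin hconst Bi hBi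
  have hTf : TauCtx w Bf τ τE τR := ⟨hτE, hτR, hτf⟩
  have hTi : TauCtx w Bi τ τE τR := ⟨hτE, hτR, hτi⟩
  intro f hf hdivu
  have hτf0 : τ f ≠ 0 := (map_ne_zero τ).2 hf
  have hu : τ f * f⁻¹ ≠ 0 := mul_ne_zero hτf0 (inv_ne_zero hf)
  obtain ⟨h, hh, hh2⟩ := Top.H96.stepII_noSep q m hq hqR hm hqm w x Bf Bi hCf hCi cf ci
    τ τE τR hTf hTi (τ f * f⁻¹) hu hdivu
    (H34.stepI w x Bf hCf cf (H34.incomparable_of_ssChart cf) τ τE τR hTf f hf)
    (H34.stepI w x⁻¹ Bi hCi ci (H34.incomparable_of_ssChart ci) τ τE τR hTi f hf)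
  refine ⟨h, hh, ?_⟩
  rw [map_mul, map_inv₀] at hh2
  have h3 : τ (τ f) = h ^ m * (τ f * f⁻¹) * τ f := by
    rw [← hh2, mul_assoc, inv_mul_cancel₀ hτf0, mul_one]
  rw [h3]
  field_simp

end Asm

end Fermat.Agent.S15.H994
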