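import Fermat.Agent.S15.H994.T6ppAlg
import Fermat.Agent.A2.Top.H96.WallNoSep
import Fermat.Agent.A2.Mod.H142.S2Final
import Fermat.Agent.A2.Mod.H372.S3
import Fermat.Agent.A2.Mod.H96.L12
import Fermat.Agent.A2.Mod.H216.GoodRedAll

/-!
# S15 / DESC, leaf T6'' (helper994), parts (b), (c), (d): the Kummer form for rational classes

`KummerRatTarget N q m` : for every inertia element `τ` at a place over `q` and every
`f ∈ ℚ̄(X₀(N))^×` such that `m ∣ div (τ f / f)`, the function `τ²f · f / (τ f)²` is an `m`-th power.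
(`A2.KummerTarget N q m` is the same statement with the stronger hypothesis `m ∣ div f`.)

* `kummerRat_of_levels` : descent to finite levels (copy of `T1.H669.kummer_of_levels`);
* `kummerRat_perN`      : IF + (model at the level `N`) ⟹ `KummerRatTarget N q m`
                          (copy of `Top.H96.t1_perN_noSep`, with `algRat_noSep`);
* `kummerRat_ready`     : the levels where MOD applies (`q = 3 → 2 ∣ N`, `q = 2 → 3 ∣ N`);
* `kummerRat_descend_of_coprime`, `kummerRat_descend_prime` : D2 (copy of `A2.H876`);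
* `kummerRat`           : `KummerRatTarget N q m` for all `q ‖ N`, `q ∤ m`, UNCONDITIONAL.
-/

set_option autoImplicit false
set_option linter.unusedSectionVars false
set_option linter.style.haveILetI false
set_option synthInstance.maxHeartbeats 400000
set_option maxHeartbeats 1600000

noncomputable section

namespace Fermat.Agent.S15.H994

open ModularCurve AlgebraicCurve HahnSeries
open Fermat.Agent.S18.H876 (barIncl coe_barIncl barIncl_injective barAlgebra
  barAlgebra_isScalarTower exists_algebraMap_eq_of_pow_eq psi_mul_finrank finite_bar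
  dedekindPsi_pos')

/-- The pointwise Kummer statement for one `τ`, rational classes. -/
def KummerRatAt (N m : ℕ) (τ : AlgebraicClosure ℚ ≃ₐ[ℚ] AlgebraicClosure ℚ) : Prop :=
  ∀ f : modularFunctionFieldBar N, f ≠ 0 →
    (∀ v : Place (AlgebraicClosure ℚ) (modularFunctionFieldBar N),
      (m : ℤ) ∣ v.ord (arithmeticRingAut (modularFunctionFieldFull N) τ f * f⁻¹)) →
    ∃ h : modularFunctionFieldBar N, h ≠ 0 ∧
      arithmeticRingAut (modularFunctionFieldFull N) τ
          (arithmeticRingAut (modularFunctionFieldFull N) τ f) * f =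
        h ^ m * (arithmeticRingAut (modularFunctionFieldFull N) τ f) ^ 2

/-- **Kummer form of T6''** at `(N, q, m)`. -/
def KummerRatTarget (N q m : ℕ) : Prop :=
  ∀ P : ValuationSubring (AlgebraicClosure ℚ), P.LiesOverPrime q →
    ∀ τ ∈ P.inertiaSubgroupIn ℚ, KummerRatAt N m τ

/-! ### (b) descent to finite levels -/

/-- One `τ`: the Kummer statement for rational classes on `F̄` from the corresponding statement
at suitable finite levels. -/
theorem kummerRat_of_levels (F₀ : IntermediateField ℚ (LaurentSeries ℚ)) (m : ℕ)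
    (τ : AlgebraicClosure ℚ ≃ₐ[ℚ] AlgebraicClosure ℚ)
    (hlevel : ∀ S : Finset (AlgebraicClosure ℚ),
      ∃ E : IntermediateField ℚ (AlgebraicClosure ℚ), (∀ s ∈ S, s ∈ E) ∧
      ∃ τE : E ≃ₐ[ℚ] E, (∀ e : E, ((τE e : E) : AlgebraicClosure ℚ) = τ (e : AlgebraicClosure ℚ)) ∧
        ∀ y : ↥(laurentBaseChange E F₀), y ≠ 0 →
          (∀ V : ValuationSubring ↥(laurentBaseChange E F₀), IsDiscreteValuationRing V →
            (∀ e : E, algebraMap E ↥(laurentBaseChange E F₀) e ∈ V) →
            ∃ h u : ↥(laurentBaseChange E F₀), h ≠ 0 ∧ u ∈ V ∧ u⁻¹ ∈ V ∧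
              arithmeticRingAut F₀ τE y * y⁻¹ = u * h ^ m) →
          ∃ h : ↥(laurentBaseChange E F₀), h ≠ 0 ∧
            arithmeticRingAut F₀ τE (arithmeticRingAut F₀ τE y) * y =
              h ^ m * (arithmeticRingAut F₀ τE y) ^ 2)
    (f : ↥(laurentBaseChange (AlgebraicClosure ℚ) F₀)) (hf : f ≠ 0)
    (hdiv : ∀ v : Place (AlgebraicClosure ℚ) ↥(laurentBaseChange (AlgebraicClosure ℚ) F₀),
      (m : ℤ) ∣ v.ord (arithmeticRingAut F₀ τ f * f⁻¹)) :
    ∃ h : ↥(laurentBaseChange (AlgebraicClosure ℚ) F₀), h ≠ 0 ∧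
      arithmeticRingAut F₀ τ (arithmeticRingAut F₀ τ f) * f =
        h ^ m * (arithmeticRingAut F₀ τ f) ^ 2 := by
  obtain ⟨S, hS⟩ := Fermat.Agent.A2.T1.H669.exists_finset_descent F₀ f
  obtain ⟨E, hSE, τE, hτE, hE⟩ := hlevel S
  obtain ⟨y, hιy⟩ := hS E hSE
  have hy0 : y ≠ 0 := by
    rintro h0
    apply hf
    rw [← hιy, h0, map_zero]
  have hτy0 : arithmeticRingAut F₀ τE y ≠ 0 :=
    (map_ne_zero_iff _ (arithmeticRingAut F₀ τE).injective).2 hy0
  have hu0 : arithmeticRingAut F₀ τE y * y⁻¹ ≠ 0 := mul_ne_zero hτy0 (inv_ne_zero hy0)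
  obtain ⟨h, hh0, hh⟩ := hE y hy0
    (Fermat.Agent.A2.T1.H669.divisibleDiv_of_ord E F₀ m _ hu0 (fun v => by
      rw [map_mul, map_inv₀, Fermat.Agent.A2.T1.H669.iota_arithmeticRingAut E F₀ τ τE hτE, hιy]
      exact hdiv v))
  refine ⟨Fermat.Agent.A2.T1.H669.iota E F₀ h,
    Fermat.Agent.A2.T1.H669.iota_ne_zero E _ hh0, ?_⟩
  have := congrArg (Fermat.Agent.A2.T1.H669.iota E F₀) hh
  rw [map_mul, map_mul, map_pow, map_pow,
    Fermat.Agent.A2.T1.H669.iota_arithmeticRingAut E F₀ τ τE hτE,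
    Fermat.Agent.A2.T1.H669.iota_arithmeticRingAut E F₀ τ τE hτE, hιy] at this
  exact this

/-! ### (c) one level: IF + model ⟹ Kummer form -/

section PerN

open Fermat.Agent.A2 Fermat.Agent.A2.Top.H994

/-- **T1 for one level, rational classes.**  `IF + (model at the level N) ⟹ KummerRatTarget`. -/
theorem kummerRat_perN (hIF : IFStatement) (N q m : ℕ) (hq : q.Prime)
    (hm : 0 < m) (hqm : ¬ q ∣ m)
    (hMOD : ∀ (P : ValuationSubring (AlgebraicClosure ℚ))
      (E : IntermediateField ℚ (AlgebraicClosure ℚ)),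
      P.LiesOverPrime q → GoodField P E → Fermat.Agent.A2.Top.H96.ModelNoSep P E N) :
    KummerRatTarget N q m := by
  intro P hP τ hτ f hf hdiv
  refine kummerRat_of_levels (modularFunctionFieldFull N) m τ (fun S => ?_) f hf hdiv
  obtain ⟨E, hSE, hE⟩ := hIF q hq P hP S
  refine ⟨E, hSE, hE.res τ hτ, fun e => rfl, fun y hy0 hdd => ?_⟩
  obtain ⟨x, Bf, Bi, hx, hfin, hconst, hBf, hBi, cf, ci, -, hτf, hτi⟩ := hMOD P E hP hE
  haveI : IsDiscreteValuationRing ↥(RE P E) := hE.dvr
  haveI : HenselianLocalRing ↥(RE P E) := hE.henselian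
  haveI : IsAlgClosed (IsLocalRing.ResidueField ↥(RE P E)) := hE.algClosed
  obtain ⟨w, hw⟩ := IsDiscreteValuationRing.exists_irreducible ↥(RE P E)
  obtain ⟨cf⟩ := cf w hw
  obtain ⟨ci⟩ := ci w hw
  have hconcl : AlgRatConclusion E m
      (arithmeticRingAut (modularFunctionFieldFull N) (hE.res τ hτ)) :=
    algRat_noSep (R := ↥(RE P E)) (E := E) (F := ↥(FE E N)) w hw q m hq
      (Fermat.Agent.A2.T1.H669.natCast_mem_maximalIdeal_RE E hP) hm hqm x hx hfin hconst
      Bf Bi hBf hBi cf ci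
      (arithmeticRingAut (modularFunctionFieldFull N) (hE.res τ hτ))
      (hE.res τ hτ).toRingEquiv (Fermat.Agent.A2.T1.H669.resR hE τ hτ)
      (fun e => arithmeticRingAut_algebraMap (modularFunctionFieldFull N) (hE.res τ hτ) e)
      (fun r => rfl)
      (hτf τ hτ (hE.res τ hτ) (fun _ => rfl) w hw)
      (hτi τ hτ (hE.res τ hτ) (fun _ => rfl) w hw)
  exact hconcl y hy0 hdd

/-- The Kummer form for rational classes at the levels where MOD applies. -/
theorem kummerRat_ready (N q m : ℕ) (hq : q.Prime) (hqN : q ∣ N) (hq2 : ¬ q ^ 2 ∣ N)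
    (hN : N ≠ 0) (h3 : q = 3 → 2 ∣ N) (h2 : q = 2 → 3 ∣ N) (hm : 0 < m) (hqm : ¬ q ∣ m) :
    KummerRatTarget N q m := by
  apply kummerRat_perN Fermat.Agent.A2.IF.H429.ifStatement N q m hq hm hqm
  intro P E hP hE
  exact Fermat.Agent.A2.Top.H96.modelNoSep_of_parts
    (fun P E M q _ _ w => Fermat.Agent.A2.Mod.H142.s2 P E M q w)
    (fun P E M q _ _ w => Fermat.Agent.A2.Mod.H372.s3_of_leaves P E M q w
      (Fermat.Agent.A2.Mod.H751.frickeExists E)
      (Fermat.Agent.A2.Mod.H751.frickeCompat E M q)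
      (Fermat.Agent.A2.Mod.H900.frickeStable P E M q w)
      (Fermat.Agent.A2.Mod.H31.deg E M q)
      (Fermat.Agent.A2.Mod.H378.resInf P E M q w)
      (Fermat.Agent.A2.Mod.H96.kron P E M q w)
      (Fermat.Agent.A2.Mod.H142.s2 P E M q w))
    Fermat.Agent.A2.Top.H216.goodRedStatement
    P E N q hq hqN hq2 hN h3 h2 hP hE

end PerN

/-! ### (d) D2: descent from the auxiliary level -/

/-- **D2 for `KummerRatTarget`, degree as hypothesis.** -/
theorem kummerRat_descend_of_coprime {N M : ℕ} [NeZero N] [NeZero M] (h : N ∣ M) (q m : ℕ)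
    (hcop : (@Module.finrank (modularFunctionFieldBar N) (modularFunctionFieldBar M) _ _
      (barAlgebra h).toModule).Coprime m)
    (hM : KummerRatTarget M q m) : KummerRatTarget N q m := by
  intro P hP τ hτ f hf hdiv
  have hinj := barIncl_injective h
  have hf' : barIncl h f ≠ 0 := fun h0 => hf (hinj (by rw [h0, map_zero]))
  obtain ⟨y, hy0, hy⟩ := hM P hP τ hτ (barIncl h f) hf'
    (fun w => by
      have h1 := Fermat.Agent.A2.H876.dvd_ord_barIncl h (m : ℤ) _ hdiv w
      rwa [map_mul, map_inv₀, ← Fermat.Agent.A2.H876.act_barIncl] at h1)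
  rw [Fermat.Agent.A2.H876.act_barIncl, Fermat.Agent.A2.H876.act_barIncl] at hy
  set g : modularFunctionFieldBar N := arithmeticRingAut (modularFunctionFieldFull N) τ f with hg
  set g2 : modularFunctionFieldBar N :=
    arithmeticRingAut (modularFunctionFieldFull N) τ g with hg2
  have hg0 : g ≠ 0 := fun h0 => hf ((arithmeticRingAut (modularFunctionFieldFull N) τ).injective
    (by rw [← hg, h0, map_zero]))
  have hg0' : barIncl h g ≠ 0 := fun h0 => hg0 (hinj (by rw [h0, map_zero]))
  rcases Nat.eq_zero_or_pos m with hm0 | hmpos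
  · subst hm0
    refine ⟨1, one_ne_zero, ?_⟩
    apply hinj
    rw [pow_zero, one_mul] at hy ⊢
    rw [map_mul, map_pow]
    exact hy
  · have hym : y ^ m = barIncl h (g2 * f / g ^ 2) := by
      rw [map_div₀, map_mul, map_pow, hy]
      field_simp
    obtain ⟨x, hx⟩ := Fermat.Agent.A2.H876.exists_barIncl_eq_of_pow_eq h m hmpos hcop y _ hym
    refine ⟨x, ?_, ?_⟩
    · rintro rfl
      exact hy0 (by rw [← hx, map_zero])
    · apply hinj
      rw [map_mul, map_mul, map_pow, map_pow, hx]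
      exact hy

/-- **D2 for `KummerRatTarget`, prime form**: `r ∤ N` prime, `gcd(r + 1, m) = 1`. -/
theorem kummerRat_descend_prime {N : ℕ} [NeZero N] (r : ℕ) (hr : r.Prime) (hrN : ¬ r ∣ N)
    (q m : ℕ) (hcop : (r + 1).Coprime m) (hM : KummerRatTarget (r * N) q m) :
    KummerRatTarget N q m := by
  haveI : NeZero (r * N) := ⟨mul_ne_zero hr.ne_zero (NeZero.ne N)⟩
  refine kummerRat_descend_of_coprime (Dvd.intro_left r rfl) q m ?_ hM
  rw [Fermat.Agent.A2.H876.finrank_bar_eq_of_psi (Dvd.intro_left r rfl) (r + 1)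
    (Fermat.Agent.S20.Comb694.dedekindPsi_prime_mul_of_not_dvd r N hr (NeZero.ne N) hrN)]
  exact hcop

/-! ### The Kummer form for rational classes, all levels -/

/-- **Kummer form of T6''**, unconditional: all `q ‖ N`, `q ∤ m`. -/
theorem kummerRat (N q m : ℕ) (hq : q.Prime) (hqN : q ∣ N) (hq2 : ¬ q ^ 2 ∣ N) (hN : N ≠ 0)
    (hm : 0 < m) (hqm : ¬ q ∣ m) : KummerRatTarget N q m := by
  haveI : NeZero N := ⟨hN⟩
  by_cases h3 : q = 3
  · subst h3
    by_cases h : 2 ∣ N
    · exact kummerRat_ready N 3 m hq hqN hq2 hN (fun _ => h) (fun h' => absurd h' (by norm_num))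
        hm hqm
    · refine kummerRat_descend_prime 2 Nat.prime_two h 3 m
        ((Nat.Prime.coprime_iff_not_dvd Nat.prime_three).2 hqm) ?_
      refine kummerRat_ready (2 * N) 3 m hq (Dvd.dvd.mul_left hqN 2) ?_
        (mul_ne_zero (by norm_num) hN) (fun _ => Dvd.intro N rfl)
        (fun h' => absurd h' (by norm_num)) hm hqm
      intro hd
      have h4 : (3 ^ 2).Coprime 2 := by norm_num
      exact hq2 (h4.dvd_of_dvd_mul_left hd)
  · by_cases h2 : q = 2
    · subst h2
      by_cases h : 3 ∣ N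
      · exact kummerRat_ready N 2 m hq hqN hq2 hN (fun h' => absurd h' (by norm_num))
          (fun _ => h) hm hqm
      · refine kummerRat_descend_prime 3 Nat.prime_three h 2 m ?_ ?_
        · have h2m : Nat.Coprime 2 m := (Nat.Prime.coprime_iff_not_dvd Nat.prime_two).2 hqm
          exact Nat.Coprime.pow_left 2 h2m
        · refine kummerRat_ready (3 * N) 2 m hq (Dvd.dvd.mul_left hqN 3) ?_
            (mul_ne_zero (by norm_num) hN) (fun h' => absurd h' (by norm_num))
            (fun _ => Dvd.intro N rfl) hm hqm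
          intro hd
          have h4 : (2 ^ 2).Coprime 3 := by norm_num
          exact hq2 (h4.dvd_of_dvd_mul_left hd)
    · exact kummerRat_ready N q m hq hqN hq2 hN (fun h' => absurd h' h3)
        (fun h' => absurd h' h2) hm hqm

end Fermat.Agent.S15.H994

end
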